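import Fermat.Agent.FeketeSzego.Main
import Fermat.Agent.PolyaRationality.Examples

/-!
# The converse of Pólya's theorem

If no monic polynomial is small on a symmetric compact set then every neighbourhood of its
polynomial hull contains a lemniscate `|P| ≤ V` of a monic integral polynomial, and the series
`∑ (V / P) ^ (2 ^ j)` has an integral expansion at infinity without being rational.
-/

set_option autoImplicit false

noncomputable section

namespace FA.Bertrandias

open Finset Filter Polynomial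
open FA.PolyaRationality (lacunaryCoeff lacunaryFun norm_lacunaryCoeff_le)
open scoped Topology ComplexConjugate

/-- The tails of `∑ x ^ (2 ^ j)`. -/
def tailFun (N : ℕ) (x : ℂ) : ℂ := ∑' n : ℕ, (lacunaryCoeff (n + N) : ℂ) * x ^ (n + 1)

theorem hasSum_tailFun (N : ℕ) {x : ℂ} (hx : ‖x‖ < 1) :
    HasSum (fun n => (lacunaryCoeff (n + N) : ℂ) * x ^ (n + 1)) (tailFun N x) := by
  refine (Summable.of_norm_bounded (g := fun n => ‖x‖ ^ (n + 1)) ?_ fun n => ?_).hasSum
  · exact (summable_nat_add_iff 1).2 (summable_geometric_of_lt_one (norm_nonneg _) hx)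
  · rw [norm_mul, norm_pow]
    exact mul_le_of_le_one_left (by positivity) (norm_lacunaryCoeff_le _)

theorem differentiableOn_tailFun (N : ℕ) :
    DifferentiableOn ℂ (tailFun N) (Metric.ball (0 : ℂ) 1) := by
  intro x hx
  rw [Metric.mem_ball, dist_zero_right] at hx
  obtain ⟨r, hr1, hr2⟩ := exists_between hx
  refine (DifferentiableOn.differentiableAt ?_
    ((isOpen_lt continuous_norm continuous_const).mem_nhds hr1)).differentiableWithinAt
  refine Complex.differentiableOn_tsum_of_summable_norm (u := fun n : ℕ => r ^ (n + 1))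
    ((summable_nat_add_iff 1).2
      (summable_geometric_of_lt_one ((norm_nonneg x).trans hr1.le) hr2))
    (fun n => Differentiable.differentiableOn (by fun_prop))
    (isOpen_lt continuous_norm continuous_const) fun n w hw => ?_
  rw [norm_mul, norm_pow]
  have hw' : ‖w‖ ≤ r := (show ‖w‖ < r from hw).le
  exact (mul_le_of_le_one_left (by positivity) (norm_lacunaryCoeff_le _)).trans
    (pow_le_pow_left₀ (norm_nonneg _) hw' _)

theorem tailFun_zero_eq {x : ℂ} : lacunaryFun x = tailFun 0 x⁻¹ :=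
  tsum_congr fun n => by simp [div_eq_mul_inv]

theorem tailFun_split (N : ℕ) {x : ℂ} (hx : ‖x‖ < 1) :
    tailFun 0 x = (∑ n ∈ range N, (lacunaryCoeff n : ℂ) * x ^ (n + 1)) + x ^ N * tailFun N x := by
  have h : HasSum (fun n => (lacunaryCoeff n : ℂ) * x ^ (n + 1))
      ((∑ n ∈ range N, (lacunaryCoeff n : ℂ) * x ^ (n + 1)) + x ^ N * tailFun N x) := by
    refine (hasSum_nat_add_iff' N).1 ?_
    rw [add_sub_cancel_left]
    refine ((hasSum_tailFun N hx).mul_left (x ^ N)).congr_fun fun n => ?_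
    rw [show n + N + 1 = N + (n + 1) by omega, pow_add]
    ring
  exact (hasSum_tailFun 0 hx).unique (by simpa using h)

/-- Shifting a power series. -/
theorem hasSum_shift {α : ℕ → ℂ} {w s : ℂ} (i : ℕ) (h : HasSum (fun n => α n * w ^ n) s) :
    HasSum (fun n => (if i ≤ n then α (n - i) else 0) * w ^ n) (w ^ i * s) := by
  refine (Function.Injective.hasSum_iff (add_left_injective i) fun n hn => ?_).1 ?_
  · rw [if_neg, zero_mul]
    intro hle
    exact hn ⟨n - i, Nat.sub_add_cancel hle⟩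
  · refine (h.mul_left (w ^ i)).congr_fun fun n => ?_
    simp only [Function.comp_apply, le_add_iff_nonneg_left, zero_le, if_true, Nat.add_sub_cancel,
      pow_add]
    ring

/-- A quotient of integral polynomials up to a high order has integral Taylor coefficients. -/
theorem int_taylor_coeff {r : ℝ} (hr : 0 < r) {α : ℕ → ℂ} {h ψ : ℂ → ℂ}
    (hα : ∀ w ∈ Metric.ball (0 : ℂ) r, HasSum (fun n => α n * w ^ n) (h w)) {A B : ℤ[X]}
    (hB : B.coeff 0 = 1) {M : ℕ} (hψ : DifferentiableOn ℂ ψ (Metric.ball 0 r))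
    (heq : ∀ w ∈ Metric.ball (0 : ℂ) r, h w * aeval w B = aeval w A + w ^ M * ψ w)
    (n : ℕ) (hn : n < M) : ∃ z : ℤ, α n = z := by
  obtain ⟨β, hβ⟩ : ∃ β : ℕ → ℂ, ∀ w ∈ Metric.ball (0 : ℂ) r,
      HasSum (fun k => β k * w ^ k) (ψ w) :=
    ⟨fun k => (k.factorial : ℂ)⁻¹ * iteratedDeriv k ψ 0, fun w hw =>
      (Complex.hasSum_taylorSeries_on_ball hψ hw).congr_fun fun k => by
        simp only [smul_eq_mul, sub_zero]; ring⟩
  obtain ⟨d, hd⟩ : ∃ d : ℕ → ℂ, d = fun k => (∑ i ∈ range (B.natDegree + 1),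
      (B.coeff i : ℂ) * if i ≤ k then α (k - i) else 0) - (A.coeff k : ℂ) -
      if M ≤ k then β (k - M) else 0 := ⟨_, rfl⟩
  have hd0 : ∀ k, d k = 0 := by
    have hsum : ∀ w ∈ Metric.ball (0 : ℂ) r, HasSum (fun k => w ^ k • d k) 0 := fun w hw => by
      have h1 : HasSum (fun k => ∑ i ∈ range (B.natDegree + 1),
          (B.coeff i : ℂ) * ((if i ≤ k then α (k - i) else 0) * w ^ k)) (h w * aeval w B) := by
        rw [aeval_eq_sum_range, mul_sum]
        refine hasSum_sum fun i _ => ?_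
        have h0 := (hasSum_shift i (hα w hw)).mul_left (B.coeff i : ℂ)
        rwa [show (B.coeff i : ℂ) * (w ^ i * h w) = h w * (B.coeff i • w ^ i) by
          rw [zsmul_eq_mul]; ring] at h0
      have h2 : HasSum (fun k => (A.coeff k : ℂ) * w ^ k) (aeval w A) := by
        rw [aeval_eq_sum_range]
        simp only [zsmul_eq_mul]
        refine hasSum_sum_of_ne_finset_zero fun k hk => ?_
        rw [mem_range] at hk
        rw [coeff_eq_zero_of_natDegree_lt (by omega), Int.cast_zero, zero_mul]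
      have h3 := (h1.sub h2).sub (hasSum_shift M (hβ w hw))
      rw [heq w hw, add_sub_cancel_left, sub_self] at h3
      refine h3.congr_fun fun k => ?_
      simp only [hd, smul_eq_mul, mul_sub, mul_sum]
      rw [mul_comm (w ^ k) (A.coeff k : ℂ), mul_comm (w ^ k) (if M ≤ k then β (k - M) else 0)]
      congr 2
      exact sum_congr rfl fun i _ => by ring
    have hps : HasFPowerSeriesAt (fun _ : ℂ => (0 : ℂ))
        (FormalMultilinearSeries.ofScalars ℂ d) 0 := hasFPowerSeriesAt_iff.2 <| by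
      filter_upwards [Metric.ball_mem_nhds (0 : ℂ) hr] with w hw
      simp only [FormalMultilinearSeries.coeff_ofScalars]
      exact hsum w hw
    have h0 := HasFPowerSeriesAt.eq_zero hps
    intro k
    have h := congrArg (fun p : FormalMultilinearSeries ℂ ℂ ℂ => p.coeff k) h0
    rw [FormalMultilinearSeries.coeff_ofScalars] at h
    exact h
  induction n using Nat.strong_induction_on with
  | _ n ih =>
    have h := hd0 n
    simp only [hd, if_neg (not_le.2 hn), sub_zero] at h
    rw [sum_range_succ', hB, Int.cast_one, one_mul, if_pos (Nat.zero_le n), Nat.sub_zero,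
      sub_eq_zero] at h
    have hrest : (∑ i ∈ range B.natDegree,
        (B.coeff (i + 1) : ℂ) * if i + 1 ≤ n then α (n - (i + 1)) else 0) ∈
          (Int.castRingHom ℂ).range := sum_mem fun i _ => by
      refine mul_mem ⟨_, rfl⟩ ?_
      split_ifs with hi
      · obtain ⟨z, hz⟩ := ih (n - (i + 1)) (by omega) (by omega)
        exact ⟨z, hz.symm⟩
      · exact zero_mem _
    obtain ⟨z, hz⟩ := hrest
    refine ⟨A.coeff n - z, ?_⟩
    rw [Int.cast_sub, ← h, show ((z : ℤ) : ℂ) = Int.castRingHom ℂ z from rfl, hz]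
    ring

/-- The value of the reflected polynomial. -/
theorem aeval_reflect (P : ℤ[X]) {w : ℂ} (hw : w ≠ 0) :
    aeval w (reflect P.natDegree P) = aeval w⁻¹ P * w ^ P.natDegree := by
  have hle : (reflect P.natDegree P).natDegree < P.natDegree + 1 :=
    Nat.lt_succ_of_le (natDegree_le_iff_coeff_eq_zero.2 fun i hi => by
      rw [coeff_reflect, revAt_eq_self_of_lt hi]
      exact coeff_eq_zero_of_natDegree_lt hi)
  rw [aeval_eq_sum_range' hle, aeval_eq_sum_range, sum_mul, ← sum_range_reflect]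
  refine sum_congr rfl fun i hi => ?_
  rw [mem_range] at hi
  rw [coeff_reflect, revAt_le (by omega), show P.natDegree + 1 - 1 - i = P.natDegree - i by omega,
    Nat.sub_sub_self (by omega), smul_mul_assoc, inv_pow,
    show w ^ P.natDegree = w ^ i * w ^ (P.natDegree - i) by
      rw [← pow_add, Nat.add_sub_cancel' (by omega)],
    ← mul_assoc, inv_mul_cancel₀ (pow_ne_zero _ hw), one_mul]

/-- **The expansion of `∑ (V / P) ^ (2 ^ j)` at infinity is integral.** -/
theorem exists_int_expansion {P : ℤ[X]} (hP : P.Monic) (hd : 0 < P.natDegree) (V : ℕ) :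
    ∃ (b : ℕ → ℤ) (R₀ : ℝ), ∀ z : ℂ, R₀ < ‖z‖ →
      HasSum (fun n => (b n : ℂ) / z ^ (n + 1)) (lacunaryFun (aeval z P / V)) := by
  obtain ⟨m, hm⟩ : ∃ m, m = P.natDegree := ⟨_, rfl⟩
  obtain ⟨B, hB⟩ : ∃ B : ℤ[X], B = reflect m P := ⟨_, rfl⟩
  have hB0 : B.coeff 0 = 1 := by
    rw [hB, coeff_reflect, revAt_le (Nat.zero_le _), Nat.sub_zero, hm, hP.coeff_natDegree]
  obtain ⟨u, hu⟩ : ∃ u : ℂ → ℂ, u = fun w => (V : ℂ) * w ^ m / aeval w B := ⟨_, rfl⟩
  have hB1 : aeval (0 : ℂ) B = 1 := by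
    rw [aeval_def, eval₂_at_zero, hB0, map_one]
  have hu0 : u 0 = 0 := by rw [hu]; simp [zero_pow (hm ▸ hd.ne')]
  have hcont : ContinuousAt u 0 := by
    rw [hu]
    exact ((continuous_const.mul (continuous_pow m)).continuousAt).div
      B.continuous_aeval.continuousAt (by rw [hB1]; exact one_ne_zero)
  have hev : ∀ᶠ w in 𝓝 (0 : ℂ), aeval w B ≠ 0 ∧ ‖u w‖ < 1 :=
    (B.continuous_aeval.continuousAt.eventually_ne (by rw [hB1]; exact one_ne_zero)).and
      (hcont.norm.eventually_lt_const (by simp [hu0]))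
  obtain ⟨r, hr, hball⟩ := Metric.eventually_nhds_iff.1 hev
  have hud : ∀ w ∈ Metric.ball (0 : ℂ) r, DifferentiableAt ℂ u w := fun w hw => by
    rw [hu]
    exact ((differentiableAt_const _).mul (differentiableAt_id.pow m)).div
      B.differentiableAt_aeval (hball hw).1
  have hud' : ∀ N, DifferentiableOn ℂ (fun w => tailFun N (u w)) (Metric.ball 0 r) :=
    fun N w hw => (((differentiableOn_tailFun N).differentiableAt (Metric.isOpen_ball.mem_nhds
      (by rw [Metric.mem_ball, dist_zero_right]; exact (hball hw).2))).comp w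
        (hud w hw)).differentiableWithinAt
  obtain ⟨α, hα⟩ : ∃ α : ℕ → ℂ, ∀ w ∈ Metric.ball (0 : ℂ) r,
      HasSum (fun n => α n * w ^ n) (tailFun 0 (u w)) :=
    ⟨fun k => (k.factorial : ℂ)⁻¹ * iteratedDeriv k (fun w => tailFun 0 (u w)) 0, fun w hw =>
      (Complex.hasSum_taylorSeries_on_ball (hud' 0) hw).congr_fun fun k => by
        simp only [smul_eq_mul, sub_zero]; ring⟩
  have hint : ∀ n, ∃ z : ℤ, α n = z := fun n => by
    obtain ⟨N, hN⟩ : ∃ N, N = n + 1 := ⟨_, rfl⟩
    refine int_taylor_coeff hr hα (ψ := fun w => (V : ℂ) ^ N * tailFun N (u w))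
      (A := ∑ k ∈ range N, C (lacunaryCoeff k * (V : ℤ) ^ (k + 1)) * X ^ (m * (k + 1)) *
        B ^ (N - (k + 1))) (B := B ^ N) (M := m * N)
      (by rw [coeff_zero_eq_eval_zero, eval_pow, ← coeff_zero_eq_eval_zero, hB0, one_pow])
      ((hud' N).const_mul _) (fun w hw => ?_) n ?_
    · obtain ⟨hw1, hw2⟩ := hball hw
      rw [tailFun_split N hw2, add_mul, sum_mul, map_pow, map_sum]
      congr 1
      · refine sum_congr rfl fun k hk => ?_
        rw [mem_range] at hk
        obtain ⟨j, hj⟩ : ∃ j, N = k + 1 + j := ⟨N - (k + 1), by omega⟩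
        simp only [map_mul, map_pow, aeval_X, map_intCast, map_natCast, eq_intCast]
        rw [hu, div_pow, mul_pow, ← pow_mul, show N - (k + 1) = j by omega, hj,
          pow_add (aeval w B) (k + 1) j]
        field_simp
      · rw [hu, div_pow, mul_pow, ← pow_mul]
        field_simp
    · calc n < N := by omega
        _ ≤ m * N := Nat.le_mul_of_pos_left _ (hm ▸ hd)
  choose b hb using hint
  have hα0 : α 0 = 0 := by
    have h := hα 0 (Metric.mem_ball_self hr)
    have h' : HasSum (fun n => α n * (0 : ℂ) ^ n) (α 0) := by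
      simpa using hasSum_single (f := fun n => α n * (0 : ℂ) ^ n) 0
        fun k hk => by simp [zero_pow hk]
    rw [h'.unique h, hu0]
    simp [tailFun]
  refine ⟨fun n => b (n + 1), r⁻¹, fun z hz => ?_⟩
  have hz0 : z ≠ 0 := norm_pos_iff.1 ((inv_pos.2 hr).trans hz)
  have hw : z⁻¹ ∈ Metric.ball (0 : ℂ) r := by
    rw [Metric.mem_ball, dist_zero_right, norm_inv]
    exact inv_lt_of_inv_lt₀ hr hz
  have hval : tailFun 0 (u z⁻¹) = lacunaryFun (aeval z P / V) := by
    rw [tailFun_zero_eq, hu, hB, hm]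
    simp only [aeval_reflect P (inv_ne_zero hz0), inv_inv, inv_div]
    rw [mul_div_mul_right _ _ (pow_ne_zero _ (inv_ne_zero hz0))]
  have h := (hasSum_nat_add_iff' 1).2 (hval ▸ hα _ hw)
  simp only [range_one, sum_singleton, hα0, zero_mul, sub_zero] at h
  exact h.congr_fun fun n => by simp only [hb, inv_pow, div_eq_mul_inv]

/-- Writing a polynomial in the basis `X ^ i * P ^ j`. -/
theorem exists_decomposition {P : ℂ[X]} (hP : P.Monic) (hd : 0 < P.natDegree) (G : ℂ[X]) :
    ∃ q : ℕ → ℂ[X], G = ∑ i ∈ range P.natDegree, X ^ i * (q i).comp P := by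
  induction hn : G.natDegree using Nat.strong_induction_on generalizing G with
  | _ n ih =>
    subst hn
    by_cases hG : G.natDegree < P.natDegree
    · refine ⟨fun i => C (G.coeff i), ?_⟩
      conv_lhs => rw [G.as_sum_range_C_mul_X_pow' hG]
      exact sum_congr rfl fun i _ => by rw [C_comp, mul_comm]
    obtain ⟨q, hq⟩ := ih (G /ₘ P).natDegree
      (by rw [natDegree_divByMonic _ hP]; omega) _ rfl
    refine ⟨fun i => C ((G %ₘ P).coeff i) + X * q i, ?_⟩
    have hlt : (G %ₘ P).natDegree < P.natDegree :=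
      natDegree_modByMonic_lt _ hP (fun e => by simp [e] at hd)
    conv_lhs => rw [← modByMonic_add_div G P, (G %ₘ P).as_sum_range_C_mul_X_pow' hlt, hq,
      mul_sum, ← sum_add_distrib]
    refine sum_congr rfl fun i _ => ?_
    rw [add_comp, C_comp, mul_comp, X_comp]
    ring

/-- **The function is not rational.** -/
theorem irrational_comp {P : ℂ[X]} (hP : P.Monic) (hd : 0 < P.natDegree) {V : ℂ} (hV : V ≠ 0)
    {P₁ Q : ℂ[X]} (hQ : Q ≠ 0) (R : ℝ) :
    ∃ z : ℂ, R < ‖z‖ ∧ lacunaryFun (P.eval z / V) * Q.eval z ≠ P₁.eval z := by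
  classical
  by_contra hcon
  push Not at hcon
  obtain ⟨q, hq⟩ := exists_decomposition hP hd Q
  obtain ⟨s, hs⟩ := exists_decomposition hP hd P₁
  obtain ⟨i, hi, hqi⟩ : ∃ i ∈ range P.natDegree, q i ≠ 0 := by
    by_contra! h
    exact hQ (by rw [hq]; exact sum_eq_zero fun i hi => by rw [h i hi, zero_comp, mul_zero])
  have hP' : derivative P ≠ 0 := fun e => by
    have := derivative_eq_zero.1 e
    omega
  obtain ⟨B, hB⟩ : ∃ B : ℝ, ∀ x ∈ (derivative P).roots.toFinset, ‖P.eval x‖ ≤ B :=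
    ⟨∑ x ∈ (derivative P).roots.toFinset, ‖P.eval x‖, fun x hx =>
      single_le_sum (f := fun y => ‖P.eval y‖) (fun y _ => norm_nonneg _) hx⟩
  obtain ⟨B', hB'⟩ := (isCompact_closedBall (0 : ℂ) R).exists_bound_of_continuousOn
    (f := fun z => P.eval z) P.continuous.continuousOn
  have hne : (q i).comp (C V * X) ≠ 0 := fun e => by
    rcases comp_eq_zero_iff.1 e with h | ⟨-, h⟩
    · exact hqi h
    · have h' := congrArg (fun p : ℂ[X] => p.coeff 1) h
      simp [hV] at h'
  obtain ⟨y, hy, hyne⟩ := PolyaRationality.lacunaryFun_irrational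
    (P := (s i).comp (C V * X)) hne (max B B' / ‖V‖)
  rw [div_lt_iff₀ (norm_pos_iff.2 hV), ← norm_mul, max_lt_iff] at hy
  obtain ⟨T, hT⟩ : ∃ T : ℂ[X], T = P - C (y * V) := ⟨_, rfl⟩
  have hTd : T.natDegree = P.natDegree := hT ▸ natDegree_sub_C
  have hsep : T.Separable := by
    rw [separable_def,
      Polynomial.isCoprime_iff_aeval_ne_zero_of_isAlgClosed (k := ℂ) (K := ℂ)]
    intro x
    simp only [coe_aeval_eq_eval, hT, derivative_sub, derivative_C, sub_zero, eval_sub, eval_C]
    by_contra! h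
    have := hB x (Multiset.mem_toFinset.2 ((mem_roots hP').2 h.2))
    rw [sub_eq_zero.1 h.1] at this
    linarith [hy.1]
  have hcard : T.roots.toFinset.card = P.natDegree := by
    rw [Multiset.toFinset_card_of_nodup (nodup_roots hsep), IsAlgClosed.card_roots_eq_natDegree,
      hTd]
  obtain ⟨G, hG⟩ : ∃ G : ℂ[X], G = ∑ j ∈ range P.natDegree,
      C (lacunaryFun y * (q j).eval (y * V) - (s j).eval (y * V)) * X ^ j := ⟨_, rfl⟩
  have hG0 : G = 0 := by
    refine eq_zero_of_natDegree_lt_card_of_eval_eq_zero' _ T.roots.toFinset (fun x hx => ?_) ?_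
    · rw [Multiset.mem_toFinset, mem_roots', IsRoot, hT, eval_sub, eval_C, sub_eq_zero] at hx
      have hxR : R < ‖x‖ := lt_of_not_ge fun hle => by
        have := hB' x (mem_closedBall_zero_iff.2 hle)
        rw [hx.2] at this
        linarith [hy.2]
      have h := hcon x hxR
      rw [hx.2, mul_div_cancel_right₀ _ hV, hq, hs] at h
      simp only [eval_finsetSum, eval_mul, eval_pow, eval_X, eval_comp, hx.2, mul_sum] at h
      rw [hG]
      simp only [eval_finsetSum, eval_mul, eval_C, eval_pow, eval_X, sub_mul, sum_sub_distrib]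
      rw [sub_eq_zero]
      refine (sum_congr rfl fun j _ => ?_).trans (h.trans (sum_congr rfl fun j _ => ?_)) <;> ring
    · rw [hcard, hG]
      refine lt_of_le_of_lt (natDegree_sum_le_of_forall_le _ _ (n := P.natDegree - 1)
        fun j hj => (natDegree_C_mul_X_pow_le _ _).trans ?_) (by omega)
      rw [mem_range] at hj
      omega
  have hc := congrArg (fun p : ℂ[X] => p.coeff i) hG0
  simp only [hG, finsetSum_coeff, coeff_C_mul_X_pow, sum_ite_eq, if_pos hi, coeff_zero,
    sub_eq_zero] at hc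
  refine hyne ?_
  simp only [eval_comp, eval_mul, eval_C, eval_X]
  rwa [mul_comm V y]

/-- **The converse of Pólya's theorem.** -/
theorem exists_irrational_near {K U : Set ℂ} (hK : IsCompact K) (hsymm : ∀ z ∈ K, conj z ∈ K)
    (hbig : FeketeSzego.BigOn K) (hU : IsOpen U)
    (hhull : ∀ z, FeketeSzego.InHull K z → z ∈ U) :
    ∃ (L : Set ℂ) (a : ℕ → ℤ) (f : ℂ → ℂ) (R₀ : ℝ), IsCompact L ∧ L ⊆ U ∧
      DifferentiableOn ℂ f Lᶜ ∧
      (∀ z : ℂ, R₀ < ‖z‖ → HasSum (fun n => (a n : ℂ) / z ^ (n + 1)) (f z)) ∧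
      ∀ P Q : ℂ[X], Q ≠ 0 → ∀ R : ℝ, ∃ z : ℂ, R < ‖z‖ ∧ f z * Q.eval z ≠ P.eval z := by
  obtain ⟨q, hq, hqd, R, hR, -, hqU⟩ := FeketeSzego.exists_lemniscate hK hsymm hbig hU
    fun z hz => hhull z (FeketeSzego.inHull_of_mem hz)
  have hev : ∀ z : ℂ, aeval z q = (q.map (algebraMap ℚ ℂ)).eval z := fun z => by
    rw [eval_map, aeval_def]
  obtain ⟨C₀, -, hC⟩ :=
    FeketeSzego.exists_pow_le_one_add (hq.map (algebraMap ℚ ℂ)) (hq.natDegree_map _)
  obtain ⟨M, hM, P, hP, hPd, hnear⟩ := FeketeSzego.exists_int_near_pow hq hqd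
    (fun z i hi => by rw [hev]; exact hC z i hi) (show 2 ≤ R by linarith)
    (show (0 : ℝ) < 1 / 4 by norm_num)
  have hRM : 8 ≤ R ^ M := hR.trans (le_self_pow₀ (by linarith) hM.ne')
  obtain ⟨V, hV⟩ : ∃ V : ℕ, V = ⌊R ^ M / 2⌋₊ + 1 := ⟨_, rfl⟩
  have hV2 : (V : ℝ) < 3 / 4 * R ^ M := by
    rw [hV]; push_cast
    linarith [Nat.floor_le (show 0 ≤ R ^ M / 2 by positivity)]
  have hPd0 : 0 < P.natDegree := hPd ▸ Nat.mul_pos hqd hM
  obtain ⟨P', hP'⟩ : ∃ P' : ℂ[X], P' = P.map (Int.castRingHom ℂ) := ⟨_, rfl⟩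
  have hP'e : ∀ z : ℂ, P'.eval z = aeval z P := fun z => by
    rw [hP', eval_map, aeval_def, algebraMap_int_eq]
  have hP'd : 0 < P'.natDegree := by rwa [hP', hP.natDegree_map]
  obtain ⟨L, hL⟩ : ∃ L : Set ℂ, L = {z | ‖aeval z P‖ ≤ V} := ⟨_, rfl⟩
  have hLc : IsCompact L := by
    refine Metric.isCompact_of_isClosed_isBounded
      (hL ▸ isClosed_le P.continuous_aeval.norm continuous_const) ?_
    obtain ⟨R₁, hR₁⟩ := PolyaRationality.exists_radius P' hP'd V
    refine (Metric.isBounded_closedBall (x := (0 : ℂ)) (r := R₁)).subset fun z hz => ?_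
    rw [hL, Set.mem_ofPred_eq, ← hP'e] at hz
    rw [mem_closedBall_zero_iff]
    exact not_lt.1 fun h => absurd hz (not_le.2 (hR₁ z h))
  have hLU : L ⊆ U := fun z hz => by
    rw [hL, Set.mem_ofPred_eq] at hz
    have hzR : ‖aeval z q‖ ≤ R := by
      by_contra hlt
      rw [not_le] at hlt
      have h := hnear z
      rw [max_eq_left hlt.le] at h
      have h1 := norm_le_norm_sub_add (aeval z q ^ M) (aeval z P)
      rw [norm_sub_rev, norm_pow] at h1
      have h2 : R ^ M ≤ ‖aeval z q‖ ^ M := pow_le_pow_left₀ (by linarith) hlt.le M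
      linarith
    rcases hqU z hzR with h | h
    · exact h
    · exact hhull z h
  obtain ⟨a, R₀, ha⟩ := exists_int_expansion hP hPd0 V
  have hV0 : (0 : ℝ) < V := by rw [hV]; positivity
  refine ⟨L, a, fun z => lacunaryFun (aeval z P / V), R₀, hLc, hLU, fun z hz => ?_, ha,
    fun P₁ Q hQ R' => ?_⟩
  · rw [hL, Set.mem_compl_iff, Set.mem_ofPred_eq, not_le] at hz
    have hz1 : aeval z P / (V : ℂ) ∈ (Metric.closedBall (0 : ℂ) 1)ᶜ := by
      rw [Set.mem_compl_iff, Metric.mem_closedBall, dist_zero_right, norm_div,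
        Complex.norm_natCast, not_le, one_lt_div hV0]
      exact hz
    have h1 : DifferentiableAt ℂ (fun x : ℂ => aeval x P / (V : ℂ)) z :=
      (P.differentiableAt_aeval (𝕜 := ℂ)).div_const _
    exact ((PolyaRationality.differentiableOn_lacunaryFun.differentiableAt
      (Metric.isClosed_closedBall.isOpen_compl.mem_nhds hz1)).comp z
        h1).differentiableWithinAt
  · obtain ⟨z, hz, hne⟩ := irrational_comp (hP.map (Int.castRingHom ℂ)) (hP' ▸ hP'd)
      (V := (V : ℂ)) (Nat.cast_ne_zero.2 (by omega)) (P₁ := P₁) hQ R'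
    exact ⟨z, hz, by rwa [← hP', hP'e] at hne⟩

end FA.Bertrandias
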