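import Fermat.Agent.Bertrandias.Main
import Fermat.Agent.PolyaRationality.Examples

/-!
# The criteria of Borel and of Dwork for power series

A power series with rational coefficients that is meromorphic in discs of radii `R∞` and `1 / R l`
is rational when `∏ R l < R∞`; in particular an integral power series meromorphic in a disc of
radius above one. A scaled lacunary series shows that equality is not enough.
-/

set_option autoImplicit false

noncomputable section

namespace FA.Bertrandias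

open Finset Filter Polynomial
open scoped Topology

/-- Finitely many singularities in a disc. -/
theorem exists_powerSeries_eq_of_disc {S : Finset Nat.Primes} {R : Nat.Primes → ℝ} {a : ℕ → ℚ}
    (hRpos : ∀ l ∈ S, 0 < R l) (hint : ∀ l : Nat.Primes, l ∉ S → ∀ n, padicNorm l (a n) ≤ 1)
    (hmero : ∀ l ∈ S, ∃ (Q : ℚ_[(l : ℕ)][X]) (C : ℝ), Q.coeff 0 = 1 ∧ ∀ n,
      ‖PowerSeries.coeff n (PowerSeries.mk (fun m => (a m : ℚ_[(l : ℕ)])) *
        (Q : PowerSeries ℚ_[(l : ℕ)]))‖ ≤ C * R l ^ n)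
    {Rinf : ℝ} (hprod : ∏ l ∈ S, R l < Rinf) {g : ℂ → ℂ} {F : Set ℂ} (hF : F.Finite)
    (hg : DifferentiableOn ℂ g (Metric.ball 0 Rinf \ F))
    (hser : ∀ᶠ w in 𝓝 (0 : ℂ), HasSum (fun n => (a n : ℂ) * w ^ n) (g w)) :
    ∃ P B : ℚ[X], B.coeff 0 = 1 ∧
      PowerSeries.mk a * (B : PowerSeries ℚ) = (P : PowerSeries ℚ) := by
  have hP : 0 < ∏ l ∈ S, R l := prod_pos fun l hl => hRpos l hl
  obtain ⟨ε, hε, hball⟩ := Metric.eventually_nhds_iff.1 hser
  have hRinf : 0 < Rinf := hP.trans hprod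
  obtain ⟨f, hf⟩ : ∃ f : ℂ → ℂ, f = fun z => g z⁻¹ * z⁻¹ := ⟨_, rfl⟩
  have hdiff : DifferentiableOn ℂ f
      (Metric.closedBall (0 : ℂ) Rinf⁻¹ ∪ (fun x : ℂ => x⁻¹) '' F)ᶜ := fun z hz => by
    rw [Set.mem_compl_iff, Set.mem_union, not_or, Metric.mem_closedBall, dist_zero_right,
      not_le] at hz
    have hz0 : z ≠ 0 := norm_pos_iff.1 ((inv_pos.2 hRinf).trans hz.1)
    have hmem : z⁻¹ ∈ Metric.ball (0 : ℂ) Rinf \ F :=
      ⟨by rw [Metric.mem_ball, dist_zero_right, norm_inv]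
          exact inv_lt_of_inv_lt₀ hRinf hz.1,
        fun h => hz.2 ⟨z⁻¹, h, inv_inv z⟩⟩
    have h1 : DifferentiableAt ℂ g z⁻¹ :=
      hg.differentiableAt ((Metric.isOpen_ball.sdiff hF.isClosed).mem_nhds hmem)
    rw [hf]
    exact ((h1.comp z (differentiableAt_inv hz0)).mul
      (differentiableAt_inv hz0)).differentiableWithinAt
  have hinf : ∀ z : ℂ, ε⁻¹ < ‖z‖ → HasSum (fun n => (a n : ℂ) / z ^ (n + 1)) (f z) := fun z hz => by
    have hd : dist z⁻¹ (0 : ℂ) < ε := by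
      rw [dist_zero_right, norm_inv]
      exact inv_lt_of_inv_lt₀ hε hz
    rw [hf]
    refine ((hball hd).mul_right z⁻¹).congr_fun fun n => ?_
    rw [div_eq_mul_inv, pow_succ, mul_inv, inv_pow]
    ring
  obtain ⟨Q, hQ, hann⟩ := exists_annihilator (isCompact_closedBall (0 : ℂ) Rinf⁻¹)
    (hF.image fun x : ℂ => x⁻¹) monic_X (by rw [natDegree_X]; exact one_pos)
    (inv_nonneg.2 hRinf.le)
    (fun z hz => by
      rw [eval_X, natDegree_X, pow_one]
      simpa using hz)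
    hRpos hint hmero (by rwa [inv_mul_lt_iff₀ hRinf, mul_one]) hdiff hinf
  exact exists_powerSeries_eq hQ hann

/-- A meromorphic function has finitely many singularities in a smaller disc. -/
theorem finite_not_analyticAt {g : ℂ → ℂ} {Rinf R' : ℝ}
    (hg : MeromorphicOn g (Metric.ball 0 Rinf)) (hR : R' < Rinf) :
    {x : ℂ | x ∈ Metric.closedBall (0 : ℂ) R' ∧ ¬AnalyticAt ℂ g x}.Finite := by
  have hsub : Metric.closedBall (0 : ℂ) R' ⊆ Metric.ball 0 Rinf :=
    Metric.closedBall_subset_ball hR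
  have h := (hg.mono_set hsub).analyticAt_mem_codiscreteWithin
  rw [(isCompact_closedBall (0 : ℂ) R').codiscreteWithin_eq, mem_inf_principal,
    mem_cofinite] at h
  refine h.subset fun x hx => ?_
  simp only [Set.mem_compl_iff, Set.mem_ofPred_eq, not_forall]
  exact ⟨hx.1, hx.2⟩

/-- **The criterion of Borel and Dwork.** -/
theorem exists_powerSeries_eq_of_meromorphic {S : Finset Nat.Primes} {R : Nat.Primes → ℝ}
    {a : ℕ → ℚ} (hRpos : ∀ l ∈ S, 0 < R l)
    (hint : ∀ l : Nat.Primes, l ∉ S → ∀ n, padicNorm l (a n) ≤ 1)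
    (hmero : ∀ l ∈ S, ∃ (Q : ℚ_[(l : ℕ)][X]) (C : ℝ), Q.coeff 0 = 1 ∧ ∀ n,
      ‖PowerSeries.coeff n (PowerSeries.mk (fun m => (a m : ℚ_[(l : ℕ)])) *
        (Q : PowerSeries ℚ_[(l : ℕ)]))‖ ≤ C * R l ^ n)
    {Rinf : ℝ} (hprod : ∏ l ∈ S, R l < Rinf) {g : ℂ → ℂ}
    (hg : MeromorphicOn g (Metric.ball 0 Rinf))
    (hser : ∀ᶠ w in 𝓝 (0 : ℂ), HasSum (fun n => (a n : ℂ) * w ^ n) (g w)) :
    ∃ P B : ℚ[X], B.coeff 0 = 1 ∧
      PowerSeries.mk a * (B : PowerSeries ℚ) = (P : PowerSeries ℚ) := by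
  obtain ⟨R', hR1, hR2⟩ := exists_between hprod
  refine exists_powerSeries_eq_of_disc hRpos hint hmero hR1 (finite_not_analyticAt hg hR2)
    (fun x hx => ?_) hser
  have hx' : x ∈ Metric.closedBall (0 : ℂ) R' := Metric.ball_subset_closedBall hx.1
  have han : AnalyticAt ℂ g x := by_contra fun hn => hx.2 ⟨hx', hn⟩
  exact han.differentiableAt.differentiableWithinAt

/-- **Borel's theorem of 1894.** -/
theorem exists_intPolynomial_of_meromorphic {a : ℕ → ℤ} {R : ℝ} (hR : 1 < R) {g : ℂ → ℂ}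
    (hg : MeromorphicOn g (Metric.ball 0 R))
    (hser : ∀ᶠ w in 𝓝 (0 : ℂ), HasSum (fun n => (a n : ℂ) * w ^ n) (g w)) :
    ∃ P B : ℤ[X], B.coeff 0 = 1 ∧
      PowerSeries.mk a * (B : PowerSeries ℤ) = (P : PowerSeries ℤ) := by
  obtain ⟨P, B, hB, h⟩ := exists_powerSeries_eq_of_meromorphic (S := ∅) (R := fun _ => 1)
    (a := fun n => (a n : ℚ)) (by simp) (fun l _ n => padicNorm.of_int _) (by simp)
    (Rinf := R) (by simpa using hR) hg
    (hser.mono fun w hw => hw.congr_fun fun n => by rw [Rat.cast_intCast])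
  refine DworkRationality.exists_intPolynomial (P := P) (Q := B) (fun e => by simp [e] at hB) ?_
  refine Eq.trans ?_ h
  congr 1

/-- The witness `∑ 2 ^ (1 - 2 ^ j) z ^ (-2 ^ j)`. -/
def scaledCoeff (n : ℕ) : ℚ := (PolyaRationality.lacunaryCoeff n : ℚ) / 2 ^ n

/-- **Product one is not enough.** -/
theorem exists_irrational_scaled :
    ∃ (a : ℕ → ℚ) (f : ℂ → ℂ),
      (∀ l : Nat.Primes, (l : ℕ) ≠ 2 → ∀ n, padicNorm l (a n) ≤ 1) ∧
      (∀ n, ‖(a n : ℚ_[2])‖ ≤ 2 ^ n) ∧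
      DifferentiableOn ℂ f (Metric.closedBall (0 : ℂ) (1 / 2))ᶜ ∧
      (∀ z : ℂ, 1 / 2 < ‖z‖ → HasSum (fun n => (a n : ℂ) / z ^ (n + 1)) (f z)) ∧
      ∀ P Q : ℂ[X], Q ≠ 0 → ∀ R : ℝ, ∃ z : ℂ, R < ‖z‖ ∧ f z * Q.eval z ≠ P.eval z := by
  refine ⟨scaledCoeff, fun z => 2 * PolyaRationality.lacunaryFun (2 * z), ?_, ?_, ?_, ?_, ?_⟩
  · intro l hl n
    have : Fact (Nat.Prime 2) := ⟨Nat.prime_two⟩
    have h2 : padicNorm l ((2 : ℕ) : ℚ) = 1 := padicNorm.padicNorm_of_prime_of_ne hl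
    have hpow : padicNorm l ((2 : ℚ) ^ n) = 1 := by
      induction n with
      | zero => simp
      | succ n ihn => rw [pow_succ, padicNorm.mul, ihn, one_mul]; simpa using h2
    rw [scaledCoeff, padicNorm.div, hpow, div_one]
    exact padicNorm.of_int _
  · intro n
    have : Fact (Nat.Prime 2) := ⟨Nat.prime_two⟩
    have h2 : ‖(2 : ℚ_[2])‖ = 2⁻¹ := by simpa using (Padic.norm_p (p := 2))
    rw [scaledCoeff, Rat.cast_div, Rat.cast_intCast, Rat.cast_pow, Rat.cast_ofNat, norm_div,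
      norm_pow, h2, inv_pow, div_inv_eq_mul]
    exact mul_le_of_le_one_left (by positivity) (Padic.norm_int_le_one _)
  · intro z hz
    have hz1 : 1 < ‖2 * z‖ := by
      rw [Set.mem_compl_iff, Metric.mem_closedBall, dist_zero_right, not_le] at hz
      rw [norm_mul, Complex.norm_ofNat]
      linarith
    have hmem : (2 * z) ∈ (Metric.closedBall (0 : ℂ) 1)ᶜ := by
      rw [Set.mem_compl_iff, Metric.mem_closedBall, dist_zero_right, not_le]
      exact hz1
    exact (((PolyaRationality.differentiableOn_lacunaryFun.differentiableAt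
      (Metric.isClosed_closedBall.isOpen_compl.mem_nhds hmem)).comp z
        (differentiableAt_id.const_mul 2)).const_mul 2).differentiableWithinAt
  · intro z hz
    have hz1 : 1 < ‖2 * z‖ := by
      rw [norm_mul, Complex.norm_ofNat]
      linarith
    refine ((PolyaRationality.hasSum_lacunaryFun hz1).mul_left 2).congr_fun fun n => ?_
    rw [scaledCoeff, Rat.cast_div, Rat.cast_intCast, Rat.cast_pow, Rat.cast_ofNat, mul_pow,
      pow_succ]
    field_simp
    ring
  · intro P Q hQ R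
    have hQ' : Q.comp (C (1 / 2) * X) * C 2 ≠ 0 := by
      refine mul_ne_zero (fun e => ?_) (by simp)
      rcases comp_eq_zero_iff.1 e with h | ⟨-, h⟩
      · exact hQ h
      · have h' := congrArg (fun p : ℂ[X] => p.coeff 1) h
        simp at h'
    obtain ⟨y, hy, hne⟩ := PolyaRationality.lacunaryFun_irrational (P := P.comp (C (1 / 2) * X))
      hQ' (2 * R)
    refine ⟨y / 2, ?_, fun heq => hne ?_⟩
    · rw [norm_div, Complex.norm_ofNat]
      linarith
    · simp only [show (2 : ℂ) * (y / 2) = y by ring] at heq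
      simp only [eval_mul, eval_comp, eval_C, eval_X]
      rw [show (1 / 2 : ℂ) * y = y / 2 by ring, ← heq]
      ring

end FA.Bertrandias
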