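import Fermat.Agent.Bertrandias.Ultrametric
import Fermat.Agent.PolyaRationality.Main

/-!
# The rationality theorem of Bertrandias over the rational numbers

A series `∑ a n / z ^ (n + 1)` with rational coefficients, integral outside a finite set of primes,
holomorphic off a compact set of small Chebyshev constant and finitely many points, and meromorphic
in a disc at each of the finitely many primes, is rational as soon as the product of the local
radii is below one: the product formula kills its Hankel determinants.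
-/

set_option autoImplicit false

noncomputable section

namespace FA.Bertrandias

open Finset Filter Polynomial
open FA.DworkRationality (hankel exists_recurrence)
open FA.PolyaRationality (moment)
open scoped Topology

instance factPrime (l : Nat.Primes) : Fact (l : ℕ).Prime := ⟨l.2⟩

/-- The determinants at the infinite place. -/
theorem exists_norm_det_hankel_le_moment {p : ℂ[X]} (hp : p.Monic) (hd : 0 < p.natDegree)
    {a : ℕ → ℂ} {r C : ℝ} (hr : 0 < r) (hC : 0 ≤ C)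
    (hb : ∀ (q : ℂ[X]) (W : ℝ), (∀ z, ‖p.eval z‖ ≤ r ^ p.natDegree → ‖q.eval z‖ ≤ W) →
      ‖moment a q‖ ≤ C * W) :
    ∃ B : ℝ, 0 ≤ B ∧
      ∀ k : ℕ, ‖(hankel a k).det‖ ≤ (k : ℝ) ^ k * B ^ k * r ^ (k * (k - 1)) := by
  obtain ⟨d, hdd⟩ : ∃ d, d = p.natDegree := ⟨_, rfl⟩
  obtain ⟨R₁, hR₁⟩ := PolyaRationality.exists_radius p hd (r ^ d)
  obtain ⟨M, hM⟩ : ∃ M : ℝ, M = max (max R₁ r) 1 := ⟨_, rfl⟩
  obtain ⟨B, hB⟩ : ∃ B : ℝ, B = (M / r) ^ d := ⟨_, rfl⟩
  have hMr : 1 ≤ M / r :=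
    (one_le_div hr).2 (hM ▸ (le_max_right R₁ r).trans (le_max_left _ _))
  have hB0 : 0 ≤ B := hB ▸ pow_nonneg (by linarith) _
  obtain ⟨e, he⟩ : ∃ e : ℕ → ℂ[X], e = fun j => X ^ (j % d) * p ^ (j / d) := ⟨_, rfl⟩
  have hem : ∀ j, (e j).Monic := fun j => he ▸ (monic_X_pow _).mul (hp.pow _)
  have hed : ∀ j, (e j).natDegree = j := fun j => by
    simp only [he]
    rw [(monic_X_pow _).natDegree_mul (hp.pow _), natDegree_X_pow, hp.natDegree_pow, ← hdd,
      Nat.mod_add_div']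
  have heb : ∀ j z, ‖p.eval z‖ ≤ r ^ d → ‖(e j).eval z‖ ≤ B * r ^ j := fun j z hz => by
    have hzR : ‖z‖ ≤ M := hM ▸ (not_lt.1 fun h => absurd hz (not_le.2 (hR₁ z h))).trans
      ((le_max_left _ _).trans (le_max_left _ _))
    simp only [he, eval_mul, eval_pow, eval_X, norm_mul, norm_pow]
    calc ‖z‖ ^ (j % d) * ‖p.eval z‖ ^ (j / d) ≤ M ^ (j % d) * (r ^ d) ^ (j / d) :=
          mul_le_mul (pow_le_pow_left₀ (norm_nonneg _) hzR _)
            (pow_le_pow_left₀ (norm_nonneg _) hz _) (by positivity)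
            (pow_nonneg ((norm_nonneg z).trans hzR) _)
      _ = (M / r) ^ (j % d) * r ^ j := by
          conv_rhs => rw [← Nat.mod_add_div j d, pow_add, pow_mul, ← mul_assoc]
          rw [Nat.mod_add_div, ← mul_pow, div_mul_cancel₀ _ hr.ne']
      _ ≤ B * r ^ j := by
          rw [hB]
          exact mul_le_mul_of_nonneg_right
            (pow_le_pow_right₀ hMr (Nat.mod_lt _ (by omega)).le) (by positivity)
  refine ⟨C * B * B, by positivity, fun k => ?_⟩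
  have hent : ∀ i j : Fin k, ‖moment a (e i * e j)‖ ≤ C * B * B * r ^ ((i : ℕ) + j) := fun i j => by
    refine (hb _ ((B * r ^ (i : ℕ)) * (B * r ^ (j : ℕ))) fun z hz => ?_).trans (le_of_eq ?_)
    · rw [← hdd] at hz
      rw [eval_mul, norm_mul]
      exact mul_le_mul (heb i z hz) (heb j z hz) (norm_nonneg _) (by positivity)
    · rw [pow_add]; ring
  rw [PolyaRationality.det_hankel_eq_det_moment a e hed hem, Matrix.det_apply]
  refine (norm_sum_le _ _).trans ((sum_le_card_nsmul _ _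
    ((C * B * B) ^ k * r ^ (k * (k - 1))) fun σ _ => ?_).trans ?_)
  · rw [Units.smul_def, zsmul_eq_mul, norm_mul, Complex.norm_intCast, norm_prod]
    rw [show |((Equiv.Perm.sign σ : ℤ) : ℝ)| = 1 by
      rcases Int.units_eq_one_or (Equiv.Perm.sign σ) with h | h <;> rw [h] <;> norm_num, one_mul]
    refine (prod_le_prod (fun i _ => norm_nonneg _) fun i _ =>
      hent (σ i : Fin k) i).trans (le_of_eq ?_)
    simp only [prod_mul_distrib, prod_const, card_univ, Fintype.card_fin, prod_pow_eq_pow_sum,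
      sum_add_distrib]
    rw [Equiv.sum_comp σ (fun i : Fin k => (i : ℕ)), Fin.sum_univ_eq_sum_range (fun i => i),
      ← mul_two, sum_range_id_mul_two]
    ring
  · rw [card_univ, Fintype.card_perm, Fintype.card_fin, nsmul_eq_mul, mul_assoc ((k : ℝ) ^ k)]
    have h1 : (k.factorial : ℝ) ≤ (k : ℝ) ^ k := by exact_mod_cast Nat.factorial_le_pow k
    exact mul_le_mul_of_nonneg_right h1 (by positivity)

/-- Finitely many points do not change the Chebyshev constant. -/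
theorem exists_monic_with_points {K F : Set ℂ} (hK : IsCompact K) (hF : F.Finite) {p : ℂ[X]}
    (hp : p.Monic) (hd : 0 < p.natDegree) {ρ r : ℝ} (hρ : 0 ≤ ρ) (hρr : ρ < r)
    (hsmall : ∀ z ∈ K, ‖p.eval z‖ ≤ ρ ^ p.natDegree) :
    ∃ (q : ℂ[X]) (ρ₀ : ℝ), q.Monic ∧ 0 < q.natDegree ∧ 0 ≤ ρ₀ ∧ ρ₀ < r ^ q.natDegree ∧
      ∀ z ∈ K ∪ F, ‖q.eval z‖ ≤ ρ₀ := by
  obtain ⟨d, hdd⟩ : ∃ d, d = p.natDegree := ⟨_, rfl⟩
  have hr : 0 < r := hρ.trans_lt hρr
  obtain ⟨w, hw⟩ : ∃ w : ℂ[X], w = ∏ x ∈ hF.toFinset, (X - C x) := ⟨_, rfl⟩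
  obtain ⟨M, hM⟩ := hK.exists_bound_of_continuousOn (f := fun z => w.eval z)
    w.continuous.continuousOn
  obtain ⟨n, hn⟩ := exists_pow_lt_of_lt_one
    (show 0 < r ^ w.natDegree / (max M 0 + 1) by positivity)
    (show (ρ / r) ^ d < 1 from
      pow_lt_one₀ (div_nonneg hρ hr.le) ((div_lt_one hr).2 hρr) (by omega))
  have hwm : w.Monic := hw ▸ monic_prod_X_sub_C _ _
  have hqd : (p ^ (n + 1) * w).natDegree = (n + 1) * d + w.natDegree := by
    rw [(hp.pow _).natDegree_mul hwm, hp.natDegree_pow, ← hdd]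
  refine ⟨p ^ (n + 1) * w, (ρ ^ d) ^ (n + 1) * max M 0, (hp.pow _).mul hwm, ?_, by positivity, ?_,
    fun z hz => ?_⟩
  · rw [hqd]
    exact Nat.add_pos_left (Nat.mul_pos n.succ_pos (hdd ▸ hd)) _
  · rw [hqd, mul_comm (n + 1) d, pow_add r, pow_mul r]
    have h1 : (ρ ^ d) ^ (n + 1) = ((ρ / r) ^ d) ^ (n + 1) * (r ^ d) ^ (n + 1) := by
      rw [← mul_pow, ← mul_pow, div_mul_cancel₀ _ hr.ne']
    have h2 : ((ρ / r) ^ d) ^ (n + 1) * (max M 0 + 1) < r ^ w.natDegree := by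
      refine lt_of_le_of_lt (mul_le_mul_of_nonneg_right
        (pow_le_pow_of_le_one (by positivity) (pow_le_one₀ (div_nonneg hρ hr.le)
          ((div_le_one hr).2 hρr.le)) (Nat.le_succ n)) (by positivity)) ?_
      rwa [← lt_div_iff₀ (by positivity)]
    rw [h1, mul_assoc, mul_comm ((r ^ d) ^ (n + 1)) (max M 0), ← mul_assoc,
      mul_comm _ (r ^ w.natDegree)]
    refine mul_lt_mul_of_pos_right (lt_of_le_of_lt ?_ h2) (by positivity)
    exact mul_le_mul_of_nonneg_left (by linarith) (by positivity)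
  · rw [eval_mul, eval_pow, norm_mul, norm_pow]
    rcases hz with hz | hz
    · exact mul_le_mul (pow_le_pow_left₀ (norm_nonneg _) (hdd ▸ hsmall z hz) _)
        ((hM z hz).trans (le_max_left _ _)) (norm_nonneg _) (by positivity)
    · have h0 : w.eval z = 0 := by
        rw [hw, eval_prod]
        exact prod_eq_zero (hF.mem_toFinset.2 hz) (by simp)
      rw [h0, norm_zero, mul_zero]
      positivity

/-- Integral entries give integral determinants. -/
theorem norm_det_le_one {L : Type*} [NormedField L] [IsUltrametricDist L] {k : ℕ}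
    {H : Matrix (Fin k) (Fin k) L} (h : ∀ i j, ‖H i j‖ ≤ 1) : ‖H.det‖ ≤ 1 := by
  rw [Matrix.det_apply]
  refine IsUltrametricDist.norm_sum_le_of_forall_le_of_nonneg zero_le_one fun σ _ => ?_
  rw [show ‖Equiv.Perm.sign σ • ∏ i, H (σ i) i‖ = ‖∏ i, H (σ i) i‖ by
    rcases Int.units_eq_one_or (Equiv.Perm.sign σ) with h | h <;> rw [h]
    · rw [one_smul]
    · rw [Units.neg_smul, one_smul, norm_neg], norm_prod]
  exact prod_le_one (fun i _ => norm_nonneg _) fun i _ => h _ _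

variable {S : Finset Nat.Primes} {R : Nat.Primes → ℝ} {a : ℕ → ℚ}

/-- The Hankel determinants vanish. -/
theorem eventually_det_eq_zero {p : ℂ[X]} (hp : p.Monic) (hd : 0 < p.natDegree) {r C : ℝ}
    (hr : 0 < r) (hC : 0 ≤ C) {v : ℕ}
    (hb : ∀ (q : ℂ[X]) (W : ℝ), (∀ z, ‖p.eval z‖ ≤ r ^ p.natDegree → ‖q.eval z‖ ≤ W) →
      ‖moment (fun n => (a (n + v) : ℂ)) q‖ ≤ C * W)
    (hRpos : ∀ l ∈ S, 0 < R l) (hint : ∀ l : Nat.Primes, l ∉ S → ∀ n, padicNorm l (a n) ≤ 1)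
    (hmero : ∀ l ∈ S, ∃ (Q : ℚ_[(l : ℕ)][X]) (C : ℝ), Q.coeff 0 = 1 ∧ ∀ n,
      ‖PowerSeries.coeff n (PowerSeries.mk (fun m => (a m : ℚ_[(l : ℕ)])) *
        (Q : PowerSeries ℚ_[(l : ℕ)]))‖ ≤ C * R l ^ n)
    (hprod : r * ∏ l ∈ S, R l < 1) :
    ∀ᶠ k in atTop, (hankel (fun n => a (n + v)) k).det = 0 := by
  classical
  obtain ⟨B, hB, hinf⟩ := exists_norm_det_hankel_le_moment hp hd hr hC hb
  have hloc : ∀ l : Nat.Primes, ∃ A B : ℝ, 0 ≤ A ∧ 0 ≤ B ∧ (l ∈ S → ∀ k,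
      ‖((hankel (fun n => a (n + v)) k).det : ℚ_[(l : ℕ)])‖ ≤
        A * B ^ k * R l ^ (k * (k - 1))) := fun l => by
    by_cases hl : l ∈ S
    · obtain ⟨Q, C', hQ, hQb⟩ := hmero l hl
      obtain ⟨A, B', hA, hB', h⟩ := exists_norm_det_hankel_le hQ (hRpos l hl) hQb v
      refine ⟨A, B', hA, hB', fun _ k => le_of_eq_of_le (congrArg norm ?_) (h k)⟩
      rw [← eq_ratCast (algebraMap ℚ ℚ_[(l : ℕ)]), RingHom.map_det]
      congr 1
    · exact ⟨0, 0, le_rfl, le_rfl, fun h => absurd h hl⟩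
  choose A B' hA hB' hAB using hloc
  obtain ⟨η, hη⟩ : ∃ η : ℝ, η = r * ∏ l ∈ S, R l := ⟨_, rfl⟩
  have hη0 : 0 < η := hη ▸ mul_pos hr (prod_pos fun l hl => hRpos l hl)
  obtain ⟨D, hD⟩ : ∃ D : ℝ, D = B * ∏ l ∈ S, B' l := ⟨_, rfl⟩
  have hD0 : 0 ≤ D := hD ▸ mul_nonneg hB (prod_nonneg fun l _ => hB' l)
  have hlim : Tendsto (fun k : ℕ => (k : ℝ) * η ^ k * (D / η)) atTop (𝓝 0) := by
    simpa using (tendsto_self_mul_const_pow_of_lt_one hη0.le (hη ▸ hprod)).mul_const (D / η)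
  have hA0 : 0 ≤ ∏ l ∈ S, A l := prod_nonneg fun l _ => hA l
  have hhalf : Tendsto (fun k : ℕ => (∏ l ∈ S, A l) * (1 / 2 : ℝ) ^ k) atTop (𝓝 0) := by
    simpa using (tendsto_pow_atTop_nhds_zero_of_lt_one (by norm_num)
      (by norm_num : (1 / 2 : ℝ) < 1)).const_mul (∏ l ∈ S, A l)
  filter_upwards [hlim.eventually_le_const (show (0 : ℝ) < 1 / 2 by norm_num),
    hhalf.eventually_lt_const one_pos, eventually_gt_atTop 0] with k hk hk' hk0
  by_contra hne
  obtain ⟨x, hx⟩ : ∃ x : ℚ, x = (hankel (fun n => a (n + v)) k).det := ⟨_, rfl⟩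
  rw [← hx] at hne
  have hpad : ∀ l : Nat.Primes, ((padicNorm l x : ℚ) : ℝ) = ‖(x : ℚ_[(l : ℕ)])‖ := fun l =>
    (Padic.eq_padicNorm x).symm
  have hout : ∀ l : Nat.Primes, l ∉ S → padicNorm l x ≤ 1 := fun l hl => by
    have h : ‖(x : ℚ_[(l : ℕ)])‖ ≤ 1 := by
      rw [hx, ← eq_ratCast (algebraMap ℚ ℚ_[(l : ℕ)]), RingHom.map_det]
      refine norm_det_le_one fun i j => ?_
      rw [RingHom.mapMatrix_apply, Matrix.map_apply, hankel, Matrix.of_apply, eq_ratCast,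
        Padic.eq_padicNorm]
      exact_mod_cast hint l hl _
    rw [← hpad] at h
    exact_mod_cast h
  have h1 := one_le_abs_mul_prod hne hout
  have h2 : (1 : ℝ) ≤ ‖(x : ℂ)‖ * ∏ l ∈ S, ‖(x : ℚ_[(l : ℕ)])‖ := by
    simp only [← hpad, Complex.norm_ratCast]
    exact_mod_cast h1
  have hxinf : ‖(x : ℂ)‖ ≤ (k : ℝ) ^ k * B ^ k * r ^ (k * (k - 1)) := by
    refine le_of_eq_of_le (congrArg norm ?_) (hinf k)
    rw [hx, ← eq_ratCast (algebraMap ℚ ℂ), RingHom.map_det]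
    congr 1
  have hxfin : ∏ l ∈ S, ‖(x : ℚ_[(l : ℕ)])‖ ≤
      (∏ l ∈ S, A l) * (∏ l ∈ S, B' l) ^ k * (∏ l ∈ S, R l) ^ (k * (k - 1)) := by
    rw [← prod_pow, ← prod_pow, ← prod_mul_distrib, ← prod_mul_distrib]
    exact prod_le_prod (fun l _ => norm_nonneg _) fun l hl => hx ▸ hAB l hl k
  have h3 := h2.trans (mul_le_mul hxinf hxfin (prod_nonneg fun l _ => norm_nonneg _)
    (by positivity))
  obtain ⟨m, rfl⟩ := Nat.exists_eq_add_of_le' hk0
  have h4 : ((m + 1 : ℕ) : ℝ) ^ (m + 1) * B ^ (m + 1) * r ^ ((m + 1) * (m + 1 - 1)) *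
      ((∏ l ∈ S, A l) * (∏ l ∈ S, B' l) ^ (m + 1) *
        (∏ l ∈ S, R l) ^ ((m + 1) * (m + 1 - 1))) =
      (∏ l ∈ S, A l) * (((m + 1 : ℕ) : ℝ) * η ^ (m + 1) * (D / η)) ^ (m + 1) := by
    rw [show ((m + 1 : ℕ) : ℝ) * η ^ (m + 1) * (D / η) = ((m + 1 : ℕ) : ℝ) * η ^ m * D by
      rw [pow_succ]; field_simp, hD, hη, Nat.add_sub_cancel, mul_comm (m + 1) m, pow_mul, pow_mul,
      mul_pow r _ m, mul_pow, mul_pow, mul_pow, mul_pow]
    ring
  rw [h4] at h3
  refine not_lt.2 h3 (lt_of_le_of_lt (mul_le_mul_of_nonneg_left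
    (pow_le_pow_left₀ (by positivity) hk _) hA0) hk')

/-- **The theorem of Bertrandias over `ℚ`**: a monic annihilator of the coefficients. -/
theorem exists_annihilator {K F : Set ℂ} (hK : IsCompact K) (hF : F.Finite) {p : ℂ[X]}
    (hp : p.Monic) (hd : 0 < p.natDegree) {ρ : ℝ} (hρ : 0 ≤ ρ)
    (hsmall : ∀ z ∈ K, ‖p.eval z‖ ≤ ρ ^ p.natDegree)
    (hRpos : ∀ l ∈ S, 0 < R l) (hint : ∀ l : Nat.Primes, l ∉ S → ∀ n, padicNorm l (a n) ≤ 1)
    (hmero : ∀ l ∈ S, ∃ (Q : ℚ_[(l : ℕ)][X]) (C : ℝ), Q.coeff 0 = 1 ∧ ∀ n,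
      ‖PowerSeries.coeff n (PowerSeries.mk (fun m => (a m : ℚ_[(l : ℕ)])) *
        (Q : PowerSeries ℚ_[(l : ℕ)]))‖ ≤ C * R l ^ n)
    (hprod : ρ * ∏ l ∈ S, R l < 1) {f : ℂ → ℂ} {R₀ : ℝ} (hf : DifferentiableOn ℂ f (K ∪ F)ᶜ)
    (hser : ∀ z : ℂ, R₀ < ‖z‖ → HasSum (fun n => (a n : ℂ) / z ^ (n + 1)) (f z)) :
    ∃ Q : ℚ[X], Q.Monic ∧
      ∀ i, ∑ n ∈ range (Q.natDegree + 1), Q.coeff n * a (i + n) = 0 := by
  by_cases h0 : ∀ n, a n = 0
  · exact ⟨1, monic_one, fun i => by simp [h0]⟩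
  push Not at h0
  obtain ⟨v, hv⟩ := h0
  obtain ⟨P, hP⟩ : ∃ P : ℝ, P = ∏ l ∈ S, R l := ⟨_, rfl⟩
  have hP0 : 0 < P := hP ▸ prod_pos fun l hl => hRpos l hl
  obtain ⟨r, hr1, hr2⟩ := exists_between (show ρ < 1 / P by rwa [lt_div_iff₀ hP0, hP])
  have hr0 : 0 < r := hρ.trans_lt hr1
  obtain ⟨q, ρ₀, hq, hqd, hρ₀, hρr, hqKF⟩ := exists_monic_with_points hK hF hp hd hρ hr1 hsmall
  have hclosed : IsOpen (K ∪ F)ᶜ := (hK.isClosed.union hF.isClosed).isOpen_compl
  obtain ⟨Cb, hCb, hb⟩ := PolyaRationality.exists_moment_bound hqd (a := fun n => (a n : ℂ)) hρ₀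
    hρr (fun z hz => hf.differentiableAt
      (hclosed.mem_nhds fun hmem => absurd hz (not_lt.2 (hqKF z hmem)))) hser
  obtain ⟨R₁, hR₁⟩ := PolyaRationality.exists_radius q hqd (r ^ q.natDegree)
  have hshift : ∀ (g : ℂ[X]) (W : ℝ), (∀ z, ‖q.eval z‖ ≤ r ^ q.natDegree → ‖g.eval z‖ ≤ W) →
      ‖moment (fun n => (a (n + v) : ℂ)) g‖ ≤ Cb * max R₁ 0 ^ v * W := by
    intro g W hW
    have e : moment (fun n => (a (n + v) : ℂ)) g = moment (fun n => (a n : ℂ)) (g * X ^ v) := by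
      clear hW
      induction g using Polynomial.induction_on' with
      | add g h hg hh =>
        rw [add_mul, PolyaRationality.moment_add, PolyaRationality.moment_add, hg, hh]
      | monomial m c =>
        rw [X_pow_eq_monomial, monomial_mul_monomial, PolyaRationality.moment_monomial,
          PolyaRationality.moment_monomial, mul_one]
    rw [e, mul_assoc]
    refine hb _ _ fun z hz => ?_
    have hzR : ‖z‖ ≤ max R₁ 0 :=
      (not_lt.1 fun h => absurd hz (not_le.2 (hR₁ z h))).trans (le_max_left _ _)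
    rw [eval_mul, eval_pow, eval_X, norm_mul, norm_pow, mul_comm (max R₁ 0 ^ v)]
    exact mul_le_mul (hW z hz) (pow_le_pow_left₀ (norm_nonneg _) hzR v) (by positivity)
      ((norm_nonneg _).trans (hW z hz))
  obtain ⟨k₀, hk₀⟩ := eventually_atTop.1 (eventually_det_eq_zero hq hqd hr0 (by positivity) hshift
    hRpos hint hmero (by rwa [← hP, ← lt_div_iff₀ hP0]))
  obtain ⟨M, c, hcM, hrec⟩ := exists_recurrence (fun n => a (n + v)) (by simpa using hv) hk₀
  obtain ⟨G, hG⟩ : ∃ G : ℚ[X], G = ∑ j ∈ range (M + 1), C (c j) * X ^ j := ⟨_, rfl⟩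
  have hGc : ∀ j ≤ M, G.coeff j = c j := fun j hj => by
    simp only [hG, finsetSum_coeff, coeff_C_mul_X_pow]
    rw [sum_ite_eq, if_pos (mem_range.2 (by omega))]
  have hGd : G.natDegree ≤ M := hG ▸ natDegree_sum_le_of_forall_le _ _
    fun j hj => (natDegree_C_mul_X_pow_le _ _).trans (Nat.le_of_lt_succ (mem_range.1 hj))
  have hGm : G.Monic := monic_of_natDegree_le_of_coeff_eq_one M hGd (by rw [hGc M le_rfl, hcM])
  have hGM : G.natDegree = M := le_antisymm hGd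
    (le_natDegree_of_ne_zero (by rw [hGc M le_rfl, hcM]; exact one_ne_zero))
  refine ⟨G * X ^ v, hGm.mul (monic_X_pow v), fun i => ?_⟩
  rw [hGm.natDegree_mul (monic_X_pow v), natDegree_X_pow, hGM, add_comm M v, add_assoc,
    sum_range_add, sum_eq_zero fun n hn => ?_, zero_add]
  · refine Eq.trans (sum_congr rfl fun j hj => ?_) (hrec i)
    rw [mem_range] at hj
    rw [coeff_mul_X_pow', if_pos (Nat.le_add_right v j), Nat.add_sub_cancel_left,
      hGc j (by omega), show i + (v + j) = i + j + v by omega]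
  · rw [mem_range] at hn
    rw [coeff_mul_X_pow', if_neg (by omega), zero_mul]

/-- From the annihilator to a rational function near infinity. -/
theorem exists_eq_aeval {Q : ℚ[X]}
    (hann : ∀ i, ∑ n ∈ range (Q.natDegree + 1), Q.coeff n * a (i + n) = 0) {f : ℂ → ℂ} {R₀ : ℝ}
    (hser : ∀ z : ℂ, R₀ < ‖z‖ → HasSum (fun n => (a n : ℂ) / z ^ (n + 1)) (f z)) :
    ∃ P : ℚ[X], ∃ R : ℝ, ∀ z : ℂ, R < ‖z‖ → f z * aeval z Q = aeval z P := by
  obtain ⟨N, hN⟩ : ∃ N, N = Q.natDegree := ⟨_, rfl⟩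
  rw [← hN] at hann
  refine ⟨∑ n ∈ range (N + 1), C (Q.coeff n) * ∑ m ∈ range n, C (a m) * X ^ (n - 1 - m),
    max R₀ 0, fun z hz => ?_⟩
  rw [max_lt_iff] at hz
  have hz0 : z ≠ 0 := norm_pos_iff.1 hz.2
  have htail : ∀ n, HasSum (fun i => (a (i + n) : ℂ) / z ^ (i + 1))
      (f z * z ^ n - ∑ m ∈ range n, (a m : ℂ) * z ^ (n - 1 - m)) := fun n => by
    have h := (hasSum_nat_add_iff' n).2 ((hser z hz.1).mul_right (z ^ n))
    have hfin : ∀ m ∈ range n, (a m : ℂ) / z ^ (m + 1) * z ^ n =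
        (a m : ℂ) * z ^ (n - 1 - m) := fun m hm => by
      rw [mem_range] at hm
      conv_lhs => rw [show n = (n - 1 - m) + (m + 1) by omega, pow_add]
      field_simp
      ring
    rw [sum_congr rfl hfin] at h
    refine h.congr_fun fun i => ?_
    rw [show i + n + 1 = i + 1 + n by omega, pow_add z (i + 1) n]
    field_simp
  have h := hasSum_sum (s := range (N + 1)) fun n _ => (htail n).mul_left (Q.coeff n : ℂ)
  have hzero : (fun i => ∑ n ∈ range (N + 1), (Q.coeff n : ℂ) *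
      ((a (i + n) : ℂ) / z ^ (i + 1))) = fun _ => 0 := funext fun i => by
    simp only [mul_div_assoc', ← Finset.sum_div, ← Rat.cast_mul, ← Rat.cast_sum, hann i]
    simp
  rw [hzero] at h
  have h' := hasSum_zero.unique h
  simp only [mul_sub, sum_sub_distrib] at h'
  rw [aeval_eq_sum_range' (show Q.natDegree < N + 1 by omega) z, mul_sum, map_sum]
  simp only [map_mul, map_sum, map_pow, aeval_X, aeval_C, eq_ratCast, Rat.smul_def]
  refine Eq.trans ?_ (sub_eq_zero.1 h'.symm)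
  exact sum_congr rfl fun n _ => by ring

/-- From the annihilator to a quotient of power series. -/
theorem exists_powerSeries_eq {Q : ℚ[X]} (hQ : Q.Monic)
    (hann : ∀ i, ∑ n ∈ range (Q.natDegree + 1), Q.coeff n * a (i + n) = 0) :
    ∃ P B : ℚ[X], B.coeff 0 = 1 ∧
      PowerSeries.mk a * (B : PowerSeries ℚ) = (P : PowerSeries ℚ) := by
  obtain ⟨N, hN⟩ : ∃ N, N = Q.natDegree := ⟨_, rfl⟩
  rw [← hN] at hann
  refine ⟨PowerSeries.trunc N (PowerSeries.mk a * ((reflect N Q : ℚ[X]) : PowerSeries ℚ)),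
    reflect N Q, ?_, ?_⟩
  · rw [coeff_reflect, revAt_le (Nat.zero_le _), Nat.sub_zero, hN, hQ.coeff_natDegree]
  ext t
  rw [coeff_coe, PowerSeries.coeff_trunc]
  split_ifs with ht
  · rfl
  obtain ⟨i, rfl⟩ := Nat.exists_eq_add_of_le (not_lt.1 ht)
  rw [PowerSeries.coeff_mul, Nat.sum_antidiagonal_eq_sum_range_succ_mk,
    ← sum_range_add_sum_Ico _ (show i ≤ (N + i).succ by omega), sum_eq_zero fun j hj => ?_,
    zero_add, sum_Ico_eq_sum_range, show (N + i).succ - i = N + 1 by omega]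
  · refine Eq.trans (sum_congr rfl fun n hn => ?_) (hann i)
    rw [mem_range] at hn
    rw [PowerSeries.coeff_mk, coeff_coe, coeff_reflect, revAt_le (by omega),
      show N - (N + i - (i + n)) = n by omega, mul_comm]
  · rw [mem_range] at hj
    rw [coeff_coe, coeff_reflect, revAt_eq_self_of_lt (by omega),
      coeff_eq_zero_of_natDegree_lt (by omega), mul_zero]

end FA.Bertrandias
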