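import Fermat.Agent.DworkRationality.Hankel
import Mathlib.NumberTheory.Padics.PadicNumbers

/-!
# Hankel determinants of series meromorphic in a non-archimedean disc

If the product of `∑ a n t ^ n` with a polynomial of constant term one has coefficients bounded by
`C * R ^ n`, the Hankel determinant of size `k` is at most `A * B ^ k * R ^ (k * (k - 1))`. For
rational numbers the product formula turns such bounds into a vanishing.
-/

set_option autoImplicit false

noncomputable section

namespace FA.Bertrandias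

open Finset Polynomial
open FA.DworkRationality (hankel)

section field

variable {K : Type*} [NormedField K] [IsUltrametricDist K]

/-- The recursion given by the denominator. -/
theorem norm_le_of_mul_bound {a : ℕ → K} {Q : K[X]} (hQ : Q.coeff 0 = 1) {C R r : ℝ} (hC : 0 ≤ C)
    (hR : 0 ≤ R) (hr : 1 ≤ r) (hRr : R ≤ r) (hQr : ∀ i, ‖Q.coeff i‖ ≤ r)
    (hb : ∀ n, ‖PowerSeries.coeff n (PowerSeries.mk a * (Q : PowerSeries K))‖ ≤ C * R ^ n)
    (n : ℕ) : ‖a n‖ ≤ C * r ^ n := by
  induction n using Nat.strong_induction_on with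
  | _ n ih =>
    have h : PowerSeries.coeff n (PowerSeries.mk a * (Q : PowerSeries K)) =
        a n + ∑ i ∈ range n, a i * Q.coeff (n - i) := by
      rw [PowerSeries.coeff_mul, Nat.sum_antidiagonal_eq_sum_range_succ_mk, sum_range_succ,
        Nat.sub_self, PowerSeries.coeff_mk, coeff_coe, hQ, mul_one, add_comm]
      simp only [PowerSeries.coeff_mk, coeff_coe]
    have hs : ‖∑ i ∈ range n, a i * Q.coeff (n - i)‖ ≤ C * r ^ n := by
      refine IsUltrametricDist.norm_sum_le_of_forall_le_of_nonneg (by positivity) fun i hi => ?_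
      rw [mem_range] at hi
      rw [norm_mul]
      calc ‖a i‖ * ‖Q.coeff (n - i)‖ ≤ C * r ^ i * r :=
            mul_le_mul (ih i hi) (hQr _) (norm_nonneg _) (by positivity)
        _ ≤ C * r ^ n := by
            rw [mul_assoc, ← pow_succ]
            gcongr
            omega
    rw [← add_sub_cancel_right (a n) (∑ i ∈ range n, a i * Q.coeff (n - i)), ← h, sub_eq_add_neg]
    refine (IsUltrametricDist.norm_add_le_max _ _).trans (max_le ((hb n).trans ?_) ?_)
    · gcongr
    · rwa [norm_neg]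

/-- The determinants after the column operations given by the denominator. -/
theorem exists_norm_det_hankel_le {a : ℕ → K} {Q : K[X]} (hQ : Q.coeff 0 = 1) {C R : ℝ}
    (hR : 0 < R) (hb : ∀ n, ‖PowerSeries.coeff n (PowerSeries.mk a * (Q : PowerSeries K))‖ ≤
      C * R ^ n) (v : ℕ) :
    ∃ A B : ℝ, 0 ≤ A ∧ 0 ≤ B ∧
      ∀ k, ‖(hankel (fun n => a (n + v)) k).det‖ ≤ A * B ^ k * R ^ (k * (k - 1)) := by
  classical
  have hC : 0 ≤ C := by simpa using (norm_nonneg _).trans (hb 0)
  obtain ⟨e, he⟩ : ∃ e, e = Q.natDegree := ⟨_, rfl⟩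
  obtain ⟨r, hr, hRr, hQr⟩ : ∃ r : ℝ, 1 ≤ r ∧ R ≤ r ∧ ∀ i, ‖Q.coeff i‖ ≤ r := by
    refine ⟨1 + R + ∑ i ∈ range (e + 1), ‖Q.coeff i‖, ?_, ?_, fun i => ?_⟩
    · linarith [sum_nonneg fun i (_ : i ∈ range (e + 1)) => norm_nonneg (Q.coeff i)]
    · linarith [sum_nonneg fun i (_ : i ∈ range (e + 1)) => norm_nonneg (Q.coeff i)]
    · by_cases hi : i ≤ e
      · linarith [single_le_sum (fun j _ => norm_nonneg (Q.coeff j))
          (show i ∈ range (e + 1) from mem_range.2 (by omega))]
      · rw [coeff_eq_zero_of_natDegree_lt (by omega), norm_zero]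
        positivity
  have hcrude := norm_le_of_mul_bound hQ hC hR.le hr hRr hQr hb
  obtain ⟨s, hs, hs1⟩ : ∃ s : ℝ, s = r / R ∧ 1 ≤ s := ⟨_, rfl, (one_le_div hR).2 hRr⟩
  refine ⟨s ^ (e * (e + v)), C * R ^ v * s ^ e, pow_nonneg (by linarith) _, by positivity,
    fun k => ?_⟩
  obtain ⟨T, hT⟩ : ∃ T : Matrix (Fin k) (Fin k) K, T = Matrix.of fun l j : Fin k =>
      if e ≤ (j : ℕ) then (if (l : ℕ) ≤ j then Q.coeff ((j : ℕ) - l) else 0)
      else if l = j then 1 else 0 := ⟨_, rfl⟩
  have htri : T.BlockTriangular id := fun l j h => by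
    have h' : (j : ℕ) < l := h
    rw [hT, Matrix.of_apply]
    split_ifs with h1 h2 h3 <;> first | rfl | omega
  have hdet : T.det = 1 := by
    rw [Matrix.det_of_isUpperTriangular htri]
    refine prod_eq_one fun j _ => ?_
    rw [hT, Matrix.of_apply]
    by_cases h1 : e ≤ (j : ℕ)
    · rw [if_pos h1, if_pos le_rfl, Nat.sub_self, hQ]
    · rw [if_neg h1, if_pos rfl]
  obtain ⟨H, hH⟩ : ∃ H, H = hankel (fun n => a (n + v)) k * T := ⟨_, rfl⟩
  have hent : ∀ i j : Fin k, ‖H i j‖ ≤ C * R ^ ((i : ℕ) + j + v) *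
      if e ≤ (j : ℕ) then 1 else s ^ (k + e + v) := fun i j => by
    rw [hH, Matrix.mul_apply]
    simp only [hankel, hT, Matrix.of_apply]
    split_ifs with hj
    · rw [mul_one]
      refine le_of_eq_of_le (congrArg norm ?_) (hb ((i : ℕ) + j + v))
      rw [PowerSeries.coeff_mul, Nat.sum_antidiagonal_eq_sum_range_succ_mk]
      simp only [PowerSeries.coeff_mk, coeff_coe]
      rw [Fin.sum_univ_eq_sum_range (fun l => a ((i : ℕ) + l + v) *
        if l ≤ (j : ℕ) then Q.coeff ((j : ℕ) - l) else 0) k,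
        ← sum_range_add_sum_Ico _ (show (j : ℕ) + 1 ≤ k from j.isLt),
        ← sum_range_add_sum_Ico _ (show (i : ℕ) + v ≤ ((i : ℕ) + j + v).succ by omega)]
      conv_lhs => rw [sum_eq_zero (s := Ico ((j : ℕ) + 1) k) (fun l hl => by
        rw [if_neg (by have := (mem_Ico.1 hl).1; omega), mul_zero]), add_zero]
      conv_rhs => rw [sum_eq_zero (s := range ((i : ℕ) + v)) (fun l hl => by
        rw [coeff_eq_zero_of_natDegree_lt (by have := mem_range.1 hl; omega), mul_zero]),
        zero_add, sum_Ico_eq_sum_range]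
      rw [show ((i : ℕ) + j + v).succ - ((i : ℕ) + v) = (j : ℕ) + 1 by omega]
      refine sum_congr rfl fun l hl => ?_
      rw [mem_range] at hl
      rw [if_pos (by omega), show (i : ℕ) + v + l = (i : ℕ) + l + v by omega,
        show (i : ℕ) + j + v - ((i : ℕ) + l + v) = j - l by omega]
    · simp only [mul_ite, mul_one, mul_zero, sum_ite_eq', mem_univ, if_true]
      refine (hcrude _).trans ?_
      rw [show r = s * R by rw [hs, div_mul_cancel₀ _ hR.ne'], mul_pow, mul_assoc,
        mul_comm (s ^ _) (R ^ _)]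
      refine mul_le_mul_of_nonneg_left ?_ hC
      refine mul_le_mul_of_nonneg_left (pow_le_pow_right₀ hs1 ?_) (by positivity)
      omega
  have hdetH : H.det = (hankel (fun n => a (n + v)) k).det := by
    rw [hH, Matrix.det_mul, hdet, mul_one]
  rw [← hdetH, Matrix.det_apply]
  refine IsUltrametricDist.norm_sum_le_of_forall_le_of_nonneg (by positivity) fun σ _ => ?_
  rw [show ‖Equiv.Perm.sign σ • ∏ i, H (σ i) i‖ = ‖∏ i, H (σ i) i‖ by
    rcases Int.units_eq_one_or (Equiv.Perm.sign σ) with h | h <;> rw [h]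
    · rw [one_smul]
    · rw [Units.neg_smul, one_smul, norm_neg], norm_prod]
  refine (prod_le_prod (fun i _ => norm_nonneg _) fun i _ => hent (σ i) i).trans ?_
  simp only [prod_mul_distrib, prod_const, card_univ, Fintype.card_fin, prod_pow_eq_pow_sum,
    sum_add_distrib, sum_const, smul_eq_mul]
  have hsum : (∑ i : Fin k, (i : ℕ)) + ∑ i : Fin k, (i : ℕ) = k * (k - 1) := by
    rw [Fin.sum_univ_eq_sum_range (fun i => i), ← mul_two, sum_range_id_mul_two]
  rw [Equiv.sum_comp σ (fun i : Fin k => (i : ℕ)), hsum, prod_ite, prod_const_one, one_mul,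
    prod_const]
  have hcard : #(univ.filter fun j : Fin k => ¬e ≤ (j : ℕ)) ≤ e := by
    refine (card_le_card_of_injOn (fun j : Fin k => (j : ℕ)) (fun j hj => ?_)
      Fin.val_injective.injOn).trans (card_range e).le
    simp only [coe_filter, mem_univ, true_and, Set.mem_ofPred_eq] at hj
    simp only [coe_range, Set.mem_Iio]
    omega
  calc C ^ k * R ^ (k * (k - 1) + k * v) * (s ^ (k + e + v)) ^ #_ ≤
        C ^ k * R ^ (k * (k - 1) + k * v) * (s ^ (k + e + v)) ^ e := by
        gcongr
        · exact one_le_pow₀ hs1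
    _ = s ^ (e * (e + v)) * (C * R ^ v * s ^ e) ^ k * R ^ (k * (k - 1)) := by
        rw [← pow_mul s, pow_add R, mul_pow, mul_pow, ← pow_mul R, ← pow_mul s,
          show (k + e + v) * e = e * (e + v) + e * k by ring, pow_add, mul_comm v k]
        ring

end field

/-- **The product formula**, in the shape used here. -/
theorem one_le_abs_mul_prod {S : Finset Nat.Primes} {x : ℚ} (hx : x ≠ 0)
    (h : ∀ l : Nat.Primes, l ∉ S → padicNorm l x ≤ 1) :
    1 ≤ |x| * ∏ l ∈ S, padicNorm l x := by
  induction S using Finset.induction_on generalizing x with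
  | empty =>
    rw [prod_empty, mul_one]
    have hden : x.den = 1 := by
      by_contra hne
      obtain ⟨l, hl, hdvd⟩ := Nat.exists_prime_and_dvd hne
      have : Fact l.Prime := ⟨hl⟩
      have h1 := h ⟨l, hl⟩ (Finset.notMem_empty _)
      have h2 : padicNorm l (x.den : ℚ) < 1 := (padicNorm.nat_lt_one_iff _).2 hdvd
      have h3 : padicNorm l (x.num : ℚ) = 1 := (padicNorm.int_eq_one_iff _).2 fun hd =>
        hl.not_dvd_one (by
          have := Nat.dvd_gcd (Int.natCast_dvd.1 hd) hdvd
          rwa [Nat.Coprime.gcd_eq_one x.reduced] at this)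
      rw [← Rat.num_div_den x, padicNorm.div, h3, one_div] at h1
      have h4 : 0 < padicNorm l (x.den : ℚ) :=
        lt_of_le_of_ne (padicNorm.nonneg _) (padicNorm.nonzero (by simp)).symm
      exact absurd h1 (not_le.2 ((one_lt_inv₀ h4).2 h2))
    rw [← Rat.num_div_den x, hden, Nat.cast_one, div_one, ← Int.cast_abs]
    exact_mod_cast Int.one_le_abs (Rat.num_ne_zero.2 hx)
  | insert q S hq ih =>
    have : Fact (q : ℕ).Prime := ⟨q.2⟩
    obtain ⟨c, hc⟩ : ∃ c : ℚ, c = padicNorm q x := ⟨_, rfl⟩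
    have hc0 : c ≠ 0 := hc ▸ padicNorm.nonzero hx
    obtain ⟨z, hz⟩ := padicNorm.values_discrete (p := (q : ℕ)) hx
    rw [← hc] at hz
    have hother : ∀ l : Nat.Primes, l ≠ q → padicNorm l (x * c) = padicNorm l x := fun l hl => by
      have : Fact (l : ℕ).Prime := ⟨l.2⟩
      have hne : (l : ℕ) ≠ q := fun e => hl (Subtype.ext e)
      have hu : padicNorm l (q : ℕ) = 1 := padicNorm.padicNorm_of_prime_of_ne hne
      have hpow : ∀ j : ℕ, padicNorm l ((q : ℕ) ^ j : ℚ) = 1 := fun j => by
        induction j with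
        | zero => simp
        | succ j ihj => rw [pow_succ, padicNorm.mul, ihj, hu, one_mul]
      rw [padicNorm.mul, hz]
      obtain ⟨j, hj | hj⟩ := Int.eq_nat_or_neg (-z)
      · rw [hj, zpow_natCast, hpow, mul_one]
      · rw [hj, zpow_neg, zpow_natCast, inv_eq_one_div, padicNorm.div, padicNorm.one, hpow,
          div_one, mul_one]
    have hself : padicNorm q (x * c) = 1 := by
      rw [padicNorm.mul, ← hc, hz]
      have hp : ∀ j : ℕ, padicNorm q ((q : ℕ) ^ j : ℚ) = (((q : ℕ) : ℚ) ^ j)⁻¹ := fun j => by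
        induction j with
        | zero => simp
        | succ j ihj =>
          rw [pow_succ, padicNorm.mul, ihj, padicNorm.padicNorm_p_of_prime, mul_inv]
      have hq0 : ((q : ℕ) : ℚ) ≠ 0 := Nat.cast_ne_zero.2 q.2.ne_zero
      obtain ⟨j, hj | hj⟩ := Int.eq_nat_or_neg (-z)
      · rw [hj, zpow_natCast, hp, mul_inv_cancel₀ (pow_ne_zero _ hq0)]
      · rw [hj, zpow_neg, zpow_natCast, inv_eq_one_div (((q : ℕ) : ℚ) ^ j), padicNorm.div,
          padicNorm.one, hp, one_div, one_div, inv_inv, inv_mul_cancel₀ (pow_ne_zero _ hq0)]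
    have h1 := ih (x := x * c) (mul_ne_zero hx hc0) fun l hl => by
      rcases eq_or_ne l q with rfl | hne
      · exact hself.le
      · rw [hother l hne]
        exact h l (by simp [hne, hl])
    rw [prod_congr rfl fun l hl => hother l (fun e => hq (e ▸ hl)), abs_mul,
      abs_of_nonneg (hc ▸ padicNorm.nonneg x : (0 : ℚ) ≤ c)] at h1
    rw [prod_insert hq, ← hc, ← mul_assoc]
    exact h1

end FA.Bertrandias
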